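/-
T1B (S44), helper79 (request of helper37 / helper46): **`0` is a finite cusp value of the level `4`
Hauptmodul `t = q⁻¹ (η(q)/η(q⁴))^8`** at every level `M` divisible by `4`: the cusp expansion of `t`
at `γ = S` has positive order (`t ∼ 256 q^{1/4}` at the cusp `0`), so
`cvT 4 8 M S = some 0`, hence `(0 : A ∩ K) ∈ cuspSet A K (cvT 4 8 M)`.
-/
import Mathlib
import Fermat.Agent.RED.BASE.CuspExpMain11
import Fermat.Agent.RED.BASE.MainCusp12
import Fermat.Agent.RED.ModelTargets4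

set_option autoImplicit false

noncomputable section

namespace Fermat.Agent.T1B.CuspZero79

open Fermat.Agent.X0 Fermat.Agent.X0.Analytic Fermat.Agent.X0.Hermite
open Fermat.Agent.X0.QExpAffine
open UpperHalfPlane ModularCurve
open scoped MatrixGroups
open Fermat.Agent.IG.PR.Interface20 Fermat.Agent.IG.AN.DeltaAffine11
open Fermat.Agent.IG.AN.DeltaQuot19 Fermat.Agent.IG.AN.DeltaAffineBridge11
open Fermat.Agent.RED.BASE.Interface12 Fermat.Agent.RED.BASE.EtaQuot12
open Fermat.Agent.RED.BASE.CuspExpT11 Fermat.Agent.RED.BASE.QExpMem19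
open Fermat.Agent.RED.BASE.DeltaMem19 Fermat.Agent.RED.BASE.CuspExpMain11
open Fermat.Agent.RED.BASE.Hauptmodul12

/-- general form: for `γ` with lower left entry `1`, the cusp value of `t` is `0`
(`n = s²`, `e k = 24`, `t^k u = 1`). -/
theorem cvT_eq_some_zero_general (n e k M : ℕ) [NeZero n] [NeZero M] (hnM : n ∣ M)
    (hn4 : 4 ≤ n) (hk : 0 < k) (hkr : e * k = 24)
    (hpow : tq Kbar n e ^ k * uq Kbar n = 1)
    (hdiv : ∀ a e' : ℕ, a * e' = n → (k : ℤ) ∣ (n : ℤ) - ((a * (n / e') : ℕ) : ℤ))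
    (h : TMem n e n) (γ : SL(2, ℤ)) (hγ : γ 1 0 = 1) :
    cvT n e M γ = some 0 := by
  obtain ⟨c, rfl⟩ := hnM
  have hc : NeZero c := ⟨fun h0 => NeZero.ne (n * c) (by rw [h0, mul_zero])⟩
  have hnM : n ∣ n * c := Dvd.intro c rfl
  have h' : TMem n e (n * c) := TMem.mono hnM h
  have hnice : IsNice (n * c) (uq Kbar n) (deltaQuot n) := isNice_of_dvd hnM (isNice_deltaQuot n)
  set t : FF (n * c) := tF (n * c) h' with ht
  set u : FF (n * c) := ⟨uq Kbar n, mem_of_isNice hnice⟩ with hu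
  have htu : t ^ k * u = 1 := Subtype.ext hpow
  have hT : ∀ (γ : SL(2, ℤ)) (T : LaurentSeries Kbar),
      IntgQN (n * c) (compSL (deltaQuot n) γ) (toC T) → (cuspData (n * c)).T γ u = T :=
    fun γ T hT => T_eq_of_isNice hnice γ T hT
  rw [cvT_eq n e (n * c) h' γ]
  obtain ⟨a, e', b, c₀, o, ha, he, hae, hb0, hbe, hprim, hrel, hc₀, ho, hE⟩ :=
    cusp_expansion n c (n * c) rfl hk hkr hdiv t u htu hT γ
  have hep : e' ∣ n := ⟨a, by rw [← hae, mul_comm]⟩
  have hp0 : 0 < n := Nat.pos_of_ne_zero (NeZero.ne n)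
  -- `a = 1` from the Hermite relation
  have ha1 : a = 1 := by
    obtain ⟨γ', -, -, h3, -⟩ := hrel
    rw [hγ] at h3
    have hdvd : (a : ℤ) ∣ 1 := ⟨γ' 1 0, by linarith⟩
    have := Int.eq_one_of_dvd_one (by positivity) hdvd
    exact_mod_cast this
  have he1 : e' = n := by rw [← hae, ha1, one_mul]
  have hunit : IsUnitAway n c₀ := isUnitAway_const n he hep hk hc₀
  have hVint : ∀ i, IsIntAway n (PowerSeries.coeff i (VK n a e' b e)) := fun i =>
    isIntAway_of_isIntegral (isIntegral_of_mem_closure_zetaK n (coeff_VK_mem n a b he hep e i))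
  have hk0 : (0 : ℤ) < k := by exact_mod_cast hk
  have hval : a * (n / e') = 1 := by rw [ha1, he1, Nat.div_self hp0]
  rw [hval] at ho
  have ho' : 0 < o := by
    push_cast at ho
    have : (4 : ℤ) ≤ n := by exact_mod_cast hn4
    by_contra hcon
    have hcon := not_lt.mp hcon
    have : (k : ℤ) * o ≤ 0 := mul_nonpos_of_nonneg_of_nonpos hk0.le hcon
    omega
  rw [hE]
  exact (shape_zero (m := n) c ho' hunit (constantCoeff_VK n a e' b e) hVint).1

/-- **`t₄` vanishes at the cusp `0`**: `cvT 4 8 M S = some 0` for `4 ∣ M`. -/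
theorem cvT_four_S (M : ℕ) [NeZero M] (hM : 4 ∣ M) : cvT 4 8 M ModularGroup.S = some 0 := by
  refine cvT_eq_some_zero_general 4 8 3 M hM le_rfl (by norm_num) (by norm_num) ?_ hdiv_four
    (tMem baseHyp_four) ModularGroup.S ?_
  · exact tq_pow_mul_uq Kbar 4 8 (by norm_num)
  · simp [ModularGroup.S]

/-- **`t₉` vanishes at the cusp `0`**: `cvT 9 3 M S = some 0` for `9 ∣ M`. -/
theorem cvT_nine_S (M : ℕ) [NeZero M] (hM : 9 ∣ M) : cvT 9 3 M ModularGroup.S = some 0 := by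
  refine cvT_eq_some_zero_general 9 3 8 M hM (by norm_num) (by norm_num) (by norm_num) ?_ hdiv_nine
    (tMem baseHyp_nine) ModularGroup.S ?_
  · exact tq_pow_mul_uq Kbar 9 3 (by norm_num)
  · simp [ModularGroup.S]

open Fermat.Agent.RED.Interface4 Fermat.Agent.RED.ModelTargets4 in
/-- **`0 ∈ cuspSet`** (level `4`). -/
theorem zero_mem_cuspSet (M' : ℕ) [NeZero M'] (hM : 4 ∣ M') (A : ValuationSubring Qbar)
    (K : IntermediateField ℚ Qbar) : (0 : ↥(AK A K)) ∈ cuspSet A K (cvT 4 8 M') := by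
  refine ⟨ModularGroup.S, ?_⟩
  rw [cvT_four_S M' hM]
  simp

open Fermat.Agent.RED.Interface4 Fermat.Agent.RED.ModelTargets4 in
/-- **`0 ∈ cuspSet`** (level `9`). -/
theorem zero_mem_cuspSet_nine (M' : ℕ) [NeZero M'] (hM : 9 ∣ M') (A : ValuationSubring Qbar)
    (K : IntermediateField ℚ Qbar) : (0 : ↥(AK A K)) ∈ cuspSet A K (cvT 9 3 M') := by
  refine ⟨ModularGroup.S, ?_⟩
  rw [cvT_nine_S M' hM]
  simp

end Fermat.Agent.T1B.CuspZero79
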